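import Mathlib
import Fermat.Agent.LT.T7.H558.FactDownSpec

/-!
# Row LT, tower T7, leaf T7.L2.1.C2.7.7.3 `H558.TorCommIdC558` (helper615, registry 2638)

OFF-MAIN.  PROVED VERBATIM: `torCommIdC615 (K) : H558.TorCommIdC558 K` -- the centraliser of an
elliptic `γ ∈ GL₂(K)` in `GL₂(𝔸_K)` (the twisted centraliser for the trivial automorphism) is
commutative.  No hole, nothing assumed.  ADDITIVE (new names only, suffix `615`).
Imports: Mathlib + `T7/H558/FactDownSpec.lean` (helper558, sha256 8043f526, byte-identical copy).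

Route: `(id).onG x = x`, so `x⁻¹ γ x = γ`, i.e. `x γ = γ x`; the discriminant of `γ` is a unit of
`K` (`T6.IsReg`), hence a unit of `𝔸_K`; two matrices which commute with a `2 × 2` matrix with
invertible discriminant over a commutative ring commute (Cramer; the argument of helper233
`comm_of_comm_disc233`, repeated here under new names so that this file imports the Spec only).
-/

set_option autoImplicit false

open AutomorphicForm IsDedekindDomain NumberField MeasureTheory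

noncomputable section

namespace Fermat.Agent.LT.T7.H615

open Fermat.Agent.LT.H556 Fermat.Agent.LT.H556.A0 Fermat.Agent.LT.T7

/-! ## 1. Cramer (Mathlib only) -/

theorem eq_zero_of_sq_mul615 {A : Type*} [CommRing A] {D Di X : A} (hDi : D * Di = 1)
    (h : D ^ 2 * X = 0) : X = 0 := by
  linear_combination Di ^ 2 * h - X * (D * Di + 1) * hDi

/-- The coordinates `(t, q, r)` of a matrix commuting with `g` are proportional to those of
`g`. -/
theorem prop_of_comm615 {A : Type*} [CommRing A] (g x : Matrix (Fin 2) (Fin 2) A)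
    (hx : x * g = g * x) :
    (x 0 0 - x 1 1) * ((g 0 0 - g 1 1) ^ 2 + 4 * g 0 1 * g 1 0)
        = ((x 0 0 - x 1 1) * (g 0 0 - g 1 1) + 2 * x 0 1 * g 1 0 + 2 * x 1 0 * g 0 1)
          * (g 0 0 - g 1 1) ∧
      x 0 1 * ((g 0 0 - g 1 1) ^ 2 + 4 * g 0 1 * g 1 0)
        = ((x 0 0 - x 1 1) * (g 0 0 - g 1 1) + 2 * x 0 1 * g 1 0 + 2 * x 1 0 * g 0 1)
          * g 0 1 ∧
      x 1 0 * ((g 0 0 - g 1 1) ^ 2 + 4 * g 0 1 * g 1 0)
        = ((x 0 0 - x 1 1) * (g 0 0 - g 1 1) + 2 * x 0 1 * g 1 0 + 2 * x 1 0 * g 0 1)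
          * g 1 0 := by
  have e00 := congrFun (congrFun hx 0) 0
  have e01 := congrFun (congrFun hx 0) 1
  have e10 := congrFun (congrFun hx 1) 0
  simp only [Matrix.mul_apply, Fin.sum_univ_two] at e00 e01 e10
  refine ⟨?_, ?_, ?_⟩
  · linear_combination (2 * g 1 0) * e01 + (-2 * g 0 1) * e10
  · linear_combination (-(g 0 0 - g 1 1)) * e01 + (2 * g 0 1) * e00
  · linear_combination (g 0 0 - g 1 1) * e10 + (-2 * g 1 0) * e00

/-- **Cramer.**  Two matrices which commute with a `2 × 2` matrix with invertible discriminant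
over a commutative ring commute. -/
theorem comm_of_comm_disc615 {A : Type*} [CommRing A] (g x y : Matrix (Fin 2) (Fin 2) A)
    (hD : IsUnit ((g 0 0 - g 1 1) ^ 2 + 4 * g 0 1 * g 1 0))
    (hx : x * g = g * x) (hy : y * g = g * y) : x * y = y * x := by
  obtain ⟨Di, hDi⟩ := hD.exists_right_inv
  obtain ⟨ht, hq, hr⟩ := prop_of_comm615 g x hx
  obtain ⟨ht', hq', hr'⟩ := prop_of_comm615 g y hy
  set D := (g 0 0 - g 1 1) ^ 2 + 4 * g 0 1 * g 1 0 with hDdef
  set μ := (x 0 0 - x 1 1) * (g 0 0 - g 1 1) + 2 * x 0 1 * g 1 0 + 2 * x 1 0 * g 0 1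
  set μ' := (y 0 0 - y 1 1) * (g 0 0 - g 1 1) + 2 * y 0 1 * g 1 0 + 2 * y 1 0 * g 0 1
  have h1 : x 0 1 * y 1 0 - y 0 1 * x 1 0 = 0 := by
    apply eq_zero_of_sq_mul615 hDi
    linear_combination (y 1 0 * D) * hq + (μ * g 0 1) * hr' - (x 1 0 * D) * hq'
      - (μ' * g 0 1) * hr
  have h2 : (x 0 0 - x 1 1) * y 0 1 - (y 0 0 - y 1 1) * x 0 1 = 0 := by
    apply eq_zero_of_sq_mul615 hDi
    linear_combination (y 0 1 * D) * ht + (μ * (g 0 0 - g 1 1)) * hq' - (x 0 1 * D) * ht'
      - (μ' * (g 0 0 - g 1 1)) * hq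
  have h3 : x 1 0 * (y 0 0 - y 1 1) - y 1 0 * (x 0 0 - x 1 1) = 0 := by
    apply eq_zero_of_sq_mul615 hDi
    linear_combination ((y 0 0 - y 1 1) * D) * hr + (μ * g 1 0) * ht'
      - ((x 0 0 - x 1 1) * D) * hr' - (μ' * g 1 0) * ht
  ext i j
  fin_cases i <;> fin_cases j
  · simp only [Fin.zero_eta, Matrix.mul_apply, Fin.sum_univ_two]
    linear_combination h1
  · simp only [Fin.zero_eta, Fin.mk_one, Matrix.mul_apply, Fin.sum_univ_two]
    linear_combination h2
  · simp only [Fin.zero_eta, Fin.mk_one, Matrix.mul_apply, Fin.sum_univ_two]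
    linear_combination h3
  · simp only [Fin.mk_one, Matrix.mul_apply, Fin.sum_univ_two]
    linear_combination (-1 : A) * h1

/-! ## 2. The leaf -/

section Leaf

variable {K : Type} [Field K] [NumberField K]

/-- The trivial automorphism acts trivially on `GL₂(𝔸_K)`. -/
theorem onG_id615 (x : G K) : (T5.AdelicAut.id K).onG x = x := by
  apply Units.ext
  ext i j
  rfl

theorem mem_tA_id_iff615 (γ : GL (Fin 2) K) (x : G K) :
    x ∈ H305.tA305 (T5.AdelicAut.id K) γ ↔ x⁻¹ * T5.ratG γ * x = T5.ratG γ := by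
  have h : x ∈ H305.tA305 (T5.AdelicAut.id K) γ
      ↔ x⁻¹ * T5.ratG γ * (T5.AdelicAut.id K).onG x = T5.ratG γ := Iff.rfl
  rw [h, onG_id615]

/-- The members of the centraliser commute with `γ`. -/
theorem comm_of_mem_id615 (γ : GL (Fin 2) K) (x : G K)
    (hx : x ∈ H305.tA305 (T5.AdelicAut.id K) γ) :
    x * T5.ratG γ = T5.ratG γ * x := by
  have h := (mem_tA_id_iff615 γ x).1 hx
  calc x * T5.ratG γ = x * (x⁻¹ * T5.ratG γ * x) := by rw [h]
    _ = T5.ratG γ * x := by group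

theorem ratG_coe615 (γ : GL (Fin 2) K) (i j : Fin 2) :
    ((T5.ratG γ : G K) : Matrix (Fin 2) (Fin 2) (Adl K)) i j
      = algebraMap K (Adl K) ((γ : Matrix (Fin 2) (Fin 2) K) i j) := rfl

/-- The discriminant in coordinates. -/
theorem disc_eq615 (γ : GL (Fin 2) K) :
    T6.disc γ = ((γ : Matrix (Fin 2) (Fin 2) K) 0 0 - (γ : Matrix (Fin 2) (Fin 2) K) 1 1) ^ 2
      + 4 * (γ : Matrix (Fin 2) (Fin 2) K) 0 1 * (γ : Matrix (Fin 2) (Fin 2) K) 1 0 := by
  unfold T6.disc
  rw [Matrix.trace_fin_two, Matrix.det_fin_two]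
  ring

variable (K)

/-- **LEAF T7.L2.1.C2.7.7.3 `TorCommIdC558`, VERBATIM.** -/
theorem torCommIdC615 : H558.TorCommIdC558 K := by
  intro γ hell x hx y hy
  have hxg := comm_of_mem_id615 γ x hx
  have hyg := comm_of_mem_id615 γ y hy
  have hreg : IsUnit (T6.disc γ) := hell.1
  rw [disc_eq615] at hreg
  have hDu : IsUnit
      ((((T5.ratG γ : G K) : Matrix (Fin 2) (Fin 2) (Adl K)) 0 0
        - ((T5.ratG γ : G K) : Matrix (Fin 2) (Fin 2) (Adl K)) 1 1) ^ 2
        + 4 * ((T5.ratG γ : G K) : Matrix (Fin 2) (Fin 2) (Adl K)) 0 1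
          * ((T5.ratG γ : G K) : Matrix (Fin 2) (Fin 2) (Adl K)) 1 0) := by
    have h := hreg.map (algebraMap K (Adl K))
    simpa only [ratG_coe615, map_add, map_sub, map_mul, map_pow, map_ofNat] using h
  have hxm : (x : Matrix (Fin 2) (Fin 2) (Adl K)) * ((T5.ratG γ : G K) : Matrix _ _ _)
      = ((T5.ratG γ : G K) : Matrix _ _ _) * (x : Matrix (Fin 2) (Fin 2) (Adl K)) := by
    have := congrArg (fun g : G K => (g : Matrix (Fin 2) (Fin 2) (Adl K))) hxg
    simpa only [Units.val_mul] using this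
  have hym : (y : Matrix (Fin 2) (Fin 2) (Adl K)) * ((T5.ratG γ : G K) : Matrix _ _ _)
      = ((T5.ratG γ : G K) : Matrix _ _ _) * (y : Matrix (Fin 2) (Fin 2) (Adl K)) := by
    have := congrArg (fun g : G K => (g : Matrix (Fin 2) (Fin 2) (Adl K))) hyg
    simpa only [Units.val_mul] using this
  have hcomm := comm_of_comm_disc615 _ _ _ hDu hxm hym
  apply Units.ext
  simpa only [Units.val_mul] using hcomm

end Leaf

end Fermat.Agent.LT.T7.H615

end
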