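import Mathlib
import Fermat.Agent.LT.T7.P51.ProdMtSpec
import Fermat.Agent.LT.T7.H315.SphInv
import Fermat.Agent.LT.T7.H644.ProdBook

/-!
# Row LT, tower T7, leaf T7.L2.1.H2b.L2 `RegSphC51` (registry 2828) -- helper615, OFF-MAIN

    regSphC615 (K K') : P51.RegSphC51 K K'        VERBATIM, UNCONDITIONAL

Spec: `LT/T7/P51/ProdMtSpec.lean` (helper51@818b57489, sha256 4b4a6c6c) on the master bytes of
its closure (`T6/Spec` c1b839bc, `T5/Spec` 8bcd82df, `T7/H305/MatchSpec` 0e8798b2).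

Proof.  Outside the level the exponents vanish (`levelAtC644`, helper644), so the groups are
`U(0) = GL₂(𝒪)`.  By the clause "outside the level" of `LocProd51` the components are
convolution products (`T6.IsConv (T6.InU 0)`) of two factors, each of which is a spherical
function (`SphOut893` of `LocA893` / `LocB893b`) or the unit `unitFn893 0`.  The factors are
bi-invariant with finite support modulo `U(0)` (`sphInvC315`, helper315, for the spherical
functions; directly for the unit), and these properties pass to convolution products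
(`isConv_reg615`, for every group and every subgroup predicate: the sum over a system of
representatives of a right invariant function does not depend on the system).
-/

set_option autoImplicit false

open AutomorphicForm IsDedekindDomain NumberField MeasureTheory

noncomputable section

namespace Fermat.Agent.LT.T7.H615

open Fermat.Agent.LT.H556 Fermat.Agent.LT.H556.A0 Fermat.Agent.LT.T7
open Fermat.Agent.LT.T7.H305 Fermat.Agent.LT.T7.H893

/-! ## 1. Convolution products: the general core (any group, any subgroup predicate) -/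

section Core

variable {Γ : Type} [Group Γ]

/-- The sum of a right `U`-invariant function over a system of representatives of distinct
cosets which covers its support does not depend on the system; more generally two such sums
for `f` on `R'` and `F` on `R` agree when `f h = F (a * h)`. -/
theorem sum_transl_reps615 (U : Γ → Prop) (hmul : ∀ a b : Γ, U a → U b → U (a * b))
    (hinv : ∀ a : Γ, U a → U a⁻¹) (F f : Γ → ℂ) (a : Γ)
    (hF : ∀ h u : Γ, U u → F (h * u) = F h) (hf : ∀ h : Γ, f h = F (a * h))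
    (R R' : Finset Γ)
    (hRd : ∀ h ∈ R, ∀ h' ∈ R, (∃ u : Γ, U u ∧ h' = h * u) → h = h')
    (hRc : ∀ h : Γ, F h ≠ 0 → ∃ h' ∈ R, ∃ u : Γ, U u ∧ h = h' * u)
    (hR'd : ∀ h ∈ R', ∀ h' ∈ R', (∃ u : Γ, U u ∧ h' = h * u) → h = h')
    (hR'c : ∀ h : Γ, f h ≠ 0 → ∃ h' ∈ R', ∃ u : Γ, U u ∧ h = h' * u) :
    ∑ h ∈ R', f h = ∑ h ∈ R, F h := by
  classical
  have hex : ∀ h : Γ, f h ≠ 0 → ∃ r ∈ R, ∃ u : Γ, U u ∧ a * h = r * u := fun h hh =>
    hRc (a * h) (by rwa [← hf])
  choose! ρ hρR w hw hρ using hex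
  refine Finset.sum_bij_ne_zero (fun h _ _ => ρ h) (fun h _ hh => hρR h hh) ?_ ?_ ?_
  · intro h₁ hm₁ hh₁ h₂ hm₂ hh₂ he
    have he' : ρ h₁ = ρ h₂ := he
    refine hR'd h₁ hm₁ h₂ hm₂ ⟨(w h₁)⁻¹ * w h₂, hmul _ _ (hinv _ (hw h₁ hh₁)) (hw h₂ hh₂), ?_⟩
    have e₁ := hρ h₁ hh₁
    have e₂ := hρ h₂ hh₂
    have : a * h₂ = a * (h₁ * ((w h₁)⁻¹ * w h₂)) := by
      calc a * h₂ = ρ h₁ * w h₂ := by rw [e₂, he']
        _ = (a * h₁) * ((w h₁)⁻¹ * w h₂) := by rw [e₁, mul_assoc, mul_inv_cancel_left]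
        _ = a * (h₁ * ((w h₁)⁻¹ * w h₂)) := mul_assoc _ _ _
    exact mul_left_cancel this
  · intro r hr hFr
    have hfne : f (a⁻¹ * r) ≠ 0 := by rw [hf, mul_inv_cancel_left]; exact hFr
    obtain ⟨h, hh, u, hu, e⟩ := hR'c _ hfne
    have e'' : a * h = r * u⁻¹ := by
      rw [eq_mul_inv_iff_mul_eq, mul_assoc, ← e, mul_inv_cancel_left]
    have hfh : f h ≠ 0 := by
      rw [hf, e'', hF r _ (hinv _ hu)]; exact hFr
    refine ⟨h, hh, hfh, ?_⟩
    refine (hRd r hr _ (hρR h hfh)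
      ⟨u⁻¹ * (w h)⁻¹, hmul _ _ (hinv _ hu) (hinv _ (hw h hfh)), ?_⟩).symm
    rw [← mul_assoc, ← e'', hρ h hfh, mul_inv_cancel_right]
  · intro h _ hh
    show f h = F (ρ h)
    rw [hf, hρ h hh, hF _ _ (hw h hh)]

/-- **Convolution products of bi-invariant functions with finite support are bi-invariant with
finite support** (`T6.IsConv`; any group, any subgroup predicate). -/
theorem isConv_reg615 (U : Γ → Prop) (hone : U 1) (hmul : ∀ a b : Γ, U a → U b → U (a * b))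
    (hinv : ∀ a : Γ, U a → U a⁻¹) (φ ψ χ : Γ → ℂ)
    (hφ : T6.IsBiInv U φ) (hψ : T6.IsBiInv U ψ)
    (hφf : T6.HasFinSupp U φ) (hψf : T6.HasFinSupp U ψ)
    (h : T6.IsConv U φ ψ χ) : T6.IsBiInv U χ ∧ T6.HasFinSupp U χ := by
  classical
  have hφr : ∀ x u : Γ, U u → φ (x * u) = φ x := fun x u hu => by
    have := hφ 1 u x hone hu
    rwa [one_mul] at this
  have hφl : ∀ x u : Γ, U u → φ (u * x) = φ x := fun x u hu => by
    have := hφ u 1 x hu hone
    rwa [mul_one] at this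
  have hψr : ∀ x u : Γ, U u → ψ (x * u) = ψ x := fun x u hu => by
    have := hψ 1 u x hone hu
    rwa [one_mul] at this
  have hψl : ∀ x u : Γ, U u → ψ (u * x) = ψ x := fun x u hu => by
    have := hψ u 1 x hu hone
    rwa [mul_one] at this
  constructor
  · intro u u' g hu hu'
    obtain ⟨R, hRd, hRc, hR⟩ := h g
    obtain ⟨R', hR'd, hR'c, hR'⟩ := h (u * g * u')
    rw [hR, hR']
    refine sum_transl_reps615 U hmul hinv (fun h => φ h * ψ (h⁻¹ * g))
      (fun h => φ h * ψ (h⁻¹ * (u * g * u'))) u⁻¹ ?_ ?_ R R' hRd hRc hR'd hR'c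
    · intro x w hw
      show φ (x * w) * ψ ((x * w)⁻¹ * g) = φ x * ψ (x⁻¹ * g)
      rw [hφr x w hw, mul_inv_rev, mul_assoc, hψl _ _ (hinv _ hw)]
    · intro x
      show φ x * ψ (x⁻¹ * (u * g * u')) = φ (u⁻¹ * x) * ψ ((u⁻¹ * x)⁻¹ * g)
      rw [hφl x _ (hinv _ hu), mul_inv_rev, inv_inv]
      have : x⁻¹ * (u * g * u') = x⁻¹ * u * g * u' := by group
      rw [this, hψr _ _ hu']
  · obtain ⟨Fφ, hFφ⟩ := hφf
    obtain ⟨Fψ, hFψ⟩ := hψf
    refine ⟨(Fφ ×ˢ Fψ).image (fun p => p.1 * p.2), fun g hg => ?_⟩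
    obtain ⟨R, -, -, hR⟩ := h g
    rw [hR] at hg
    obtain ⟨x, -, hx⟩ := Finset.exists_ne_zero_of_sum_ne_zero hg
    have hφx : φ x ≠ 0 := left_ne_zero_of_mul hx
    have hψx : ψ (x⁻¹ * g) ≠ 0 := right_ne_zero_of_mul hx
    obtain ⟨a, ha, u, hu, e⟩ := hFφ x hφx
    have hψa : ψ (a⁻¹ * g) ≠ 0 := by
      have : a⁻¹ * g = u * (x⁻¹ * g) := by rw [e]; group
      rw [this, hψl _ _ hu]; exact hψx
    obtain ⟨b, hb, u', hu', e'⟩ := hFψ _ hψa
    refine ⟨a * b, Finset.mem_image.2 ⟨(a, b), Finset.mem_product.2 ⟨ha, hb⟩, rfl⟩, u', hu', ?_⟩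
    rw [mul_assoc, ← e', mul_inv_cancel_left]

end Core

/-! ## 2. The factors at a place outside the level -/

section Local

variable {k : Type} [Field k] [Valued k T6.Γ₀]

theorem inU_zero_one615 : T6.InU 0 (1 : GL (Fin 2) k) :=
  (T6.H305.inU_zero_iff _).2 T6.H305.inK_one

theorem inU_zero_mul615 (a b : GL (Fin 2) k) (ha : T6.InU 0 a) (hb : T6.InU 0 b) :
    T6.InU 0 (a * b) :=
  (T6.H305.inU_zero_iff _).2
    (T6.H305.inK_mul ((T6.H305.inU_zero_iff _).1 ha) ((T6.H305.inU_zero_iff _).1 hb))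

theorem inU_zero_inv615 (a : GL (Fin 2) k) (ha : T6.InU 0 a) : T6.InU 0 a⁻¹ :=
  (T6.H305.inU_zero_iff _).2 (T6.H305.inK_inv ((T6.H305.inU_zero_iff _).1 ha))

/-- The unit function of level `0` is bi-invariant with finite support. -/
theorem unitFn_reg615 :
    T6.IsBiInv (T6.InU 0) (unitFn893 (k := k) 0)
      ∧ T6.HasFinSupp (T6.InU 0) (unitFn893 (k := k) 0) := by
  classical
  constructor
  · intro u u' g hu hu'
    have hiff : T6.InU 0 (u * g * u') ↔ T6.InU 0 g := by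
      constructor
      · intro h
        have h1 := inU_zero_mul615 _ _ (inU_zero_mul615 _ _ (inU_zero_inv615 _ hu) h)
          (inU_zero_inv615 _ hu')
        have e : u⁻¹ * (u * g * u') * u'⁻¹ = g := by group
        rwa [e] at h1
      · intro h
        exact inU_zero_mul615 _ _ (inU_zero_mul615 _ _ hu h) hu'
    unfold unitFn893
    by_cases hg : T6.InU 0 g
    · rw [if_pos hg, if_pos (hiff.2 hg)]
    · rw [if_neg hg, if_neg (fun h => hg (hiff.1 h))]
  · refine ⟨{1}, fun g hg => ⟨1, Finset.mem_singleton_self _, g, ?_, (one_mul g).symm⟩⟩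
    by_contra hn
    exact hg (by unfold unitFn893; rw [if_neg hn])

end Local

/-! ## 3. The leaf -/

section Leaf

variable (K K' : Type) [Field K] [NumberField K] [Field K'] [NumberField K'] [Algebra K K']

/-- **LEAF T7.L2.1.H2b.L2 = REG-SPH** (`P51.RegSphC51 K K'`, VERBATIM, UNCONDITIONAL). -/
theorem regSphC615 : P51.RegSphC51 K K' := by
  classical
  intro ℓ Φ B g 𝔫 μc T₀ n n₀ m H' z' H z t k j T φ₀ Φ' f₀ F hloc v hvT hv
  obtain ⟨hctx, -, -, hprod⟩ := hloc
  obtain ⟨hm0, hn0⟩ := H644.levelAtC644 K K' 𝔫 T₀ n m hctx.mem_T₀ hctx.lev_m hctx.lev_n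
  obtain ⟨T₁, T₂, φ₁, Φ₁, f₁, F₁, φ₂, Φ₂, f₂, F₂, hT, -, -, hA, hBb, -, -, -, -, hout, -, -⟩ :=
    hprod
  obtain ⟨hcv, hcw⟩ := hout v hvT hv
  have hsphA : SphOut893 B.l T₀ T₁ φ₁ f₁ := hA.2.2.1
  have hsphB : SphOut893 B.l T₀ T₂ φ₂ f₂ := hBb.2.2.2.2.1
  -- the factors downstairs
  have hf1 : T6.IsBiInv (T6.InU 0) (if v ∈ T₁ then f₁ v else unitFn893 0)
      ∧ T6.HasFinSupp (T6.InU 0) (if v ∈ T₁ then f₁ v else unitFn893 0) := by
    by_cases h1 : v ∈ T₁
    · rw [if_pos h1]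
      obtain ⟨A, Av, hAv, -, -, -⟩ := hsphA v h1 hv
      exact H315.sphInvC315 K v _ Av hAv
    · rw [if_neg h1]; exact unitFn_reg615
  have hf2 : T6.IsBiInv (T6.InU 0) (if v ∈ T₂ then f₂ v else unitFn893 0)
      ∧ T6.HasFinSupp (T6.InU 0) (if v ∈ T₂ then f₂ v else unitFn893 0) := by
    by_cases h2 : v ∈ T₂
    · rw [if_pos h2]
      obtain ⟨A, Av, hAv, -, -, -⟩ := hsphB v h2 hv
      exact H315.sphInvC315 K v _ Av hAv
    · rw [if_neg h2]; exact unitFn_reg615
  refine ⟨fun w hw => ?_, ?_⟩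
  · -- upstairs
    have hp1 : T6.IsBiInv (T6.InU 0) (if v ∈ T₁ then φ₁ w else unitFn893 0)
        ∧ T6.HasFinSupp (T6.InU 0) (if v ∈ T₁ then φ₁ w else unitFn893 0) := by
      by_cases h1 : v ∈ T₁
      · rw [if_pos h1]
        obtain ⟨A, Av, -, hAw, -, -⟩ := hsphA v h1 hv
        exact H315.sphInvC315 K' w _ (A w) (hAw w hw)
      · rw [if_neg h1]; exact unitFn_reg615
    have hp2 : T6.IsBiInv (T6.InU 0) (if v ∈ T₂ then φ₂ w else unitFn893 0)
        ∧ T6.HasFinSupp (T6.InU 0) (if v ∈ T₂ then φ₂ w else unitFn893 0) := by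
      by_cases h2 : v ∈ T₂
      · rw [if_pos h2]
        obtain ⟨A, Av, -, hAw, -, -⟩ := hsphB v h2 hv
        exact H315.sphInvC315 K' w _ (A w) (hAw w hw)
      · rw [if_neg h2]; exact unitFn_reg615
    rw [hn0 v w hv hw]
    exact isConv_reg615 (T6.InU 0) inU_zero_one615 inU_zero_mul615 inU_zero_inv615 _ _ _
      hp1.1 hp2.1 hp1.2 hp2.2 (hcw w hw)
  · rw [hm0 v hv]
    exact isConv_reg615 (T6.InU 0) inU_zero_one615 inU_zero_mul615 inU_zero_inv615 _ _ _
      hf1.1 hf2.1 hf1.2 hf2.2 hcv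

end Leaf

end Fermat.Agent.LT.T7.H615

end
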